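import Mathlib
import Fermat.Agent.LT.T7.H751.FactDownQSpec

/-!
# Row LT, tower T7, node Q2.7.7, leaf FDQ.9 `HaarSigmaRC751` (helper567, SPARE of row 2703)

OFF-MAIN, ADDITIVE.  Spec: `T7/H751/FactDownQSpec.lean` (helper751), byte-identical copy.

`haarSigmaRC567 : T7.H751.HaarSigmaRC751`, VERBATIM, UNCONDITIONAL: the Haar measures (Borel) of
`GL₂(ℝ)` are σ-finite, and so are the images in `GL₂(ℝ)` of the Haar measures of the centralisers.

Proof (mirror of the complex case of helper729): `GL₂(ℝ)` is σ-compact (closed in `M₂ × M₂ᵐᵒᵖ`),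
a centraliser is a closed subgroup, a Haar measure is finite on compact sets, a closed embedding
is a measurable embedding.
-/

set_option autoImplicit false

open MeasureTheory

noncomputable section

namespace Fermat.Agent.LT.T7.H567

open Fermat.Agent.LT.T7 Fermat.Agent.LT.T7.H305

/-- A Haar measure (Borel) of a σ-compact group is σ-finite. -/
theorem sigmaFinite_haar567 {G : Type} [Group G] [TopologicalSpace G] [IsTopologicalGroup G]
    [SigmaCompactSpace G] (μ : @Measure G (borel G))
    (hμ : @Measure.IsHaarMeasure G _ _ (borel G) μ) : @SigmaFinite G (borel G) μ := by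
  letI : MeasurableSpace G := borel G
  haveI : BorelSpace G := ⟨rfl⟩
  haveI := hμ
  infer_instance

/-- The image in the group of a Haar measure of a closed subgroup of a σ-compact group is
σ-finite. -/
theorem sigmaFinite_map_val567 {G : Type} [Group G] [TopologicalSpace G]
    [IsTopologicalGroup G] [SigmaCompactSpace G] (T : Subgroup G) (hT : IsClosed (T : Set G))
    (μT : @Measure T (borel T)) (hμ : @Measure.IsHaarMeasure T _ _ (borel T) μT) :
    @SigmaFinite G (borel G) (@Measure.map T G (borel T) (borel G) Subtype.val μT) := by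
  letI : MeasurableSpace G := borel G
  haveI : BorelSpace G := ⟨rfl⟩
  letI : MeasurableSpace T := borel T
  haveI : BorelSpace T := ⟨rfl⟩
  haveI : SigmaCompactSpace T := hT.isClosedEmbedding_subtypeVal.sigmaCompactSpace
  haveI := hμ
  exact (hT.isClosedEmbedding_subtypeVal.measurableEmbedding).sigmaFinite_map

theorem sigmaCompact_GL2R567 : SigmaCompactSpace (GL (Fin 2) ℝ) := by
  haveI : SigmaCompactSpace (Matrix (Fin 2) (Fin 2) ℝ) :=
    inferInstanceAs (SigmaCompactSpace (Fin 2 → Fin 2 → ℝ))
  haveI : SigmaCompactSpace (Matrix (Fin 2) (Fin 2) ℝ)ᵐᵒᵖ :=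
    MulOpposite.opHomeomorph.symm.isClosedEmbedding.sigmaCompactSpace
  exact Units.isClosedEmbedding_embedProduct.sigmaCompactSpace

theorem isClosed_cent567 {H : Type} [Group H] [TopologicalSpace H] [IsTopologicalGroup H]
    [T2Space H] (γ : H) : IsClosed ((cent305 γ : Subgroup H) : Set H) := by
  have h : ((cent305 γ : Subgroup H) : Set H) = {x : H | x⁻¹ * γ * x = γ} := rfl
  rw [h]
  exact isClosed_eq ((continuous_inv.mul continuous_const).mul continuous_id) continuous_const

/-- **LEAF FDQ.9 `HaarSigmaRC751`, VERBATIM.** -/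
theorem haarSigmaRC567 : H751.HaarSigmaRC751 := by
  haveI := sigmaCompact_GL2R567
  exact ⟨fun μ hμ => sigmaFinite_haar567 μ hμ,
    fun γ₀ μT hμT => sigmaFinite_map_val567 _ (isClosed_cent567 γ₀) μT hμT⟩

end Fermat.Agent.LT.T7.H567
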